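/-
S41 / C7a [PD-ALG], second seat (helper10).  Model-independent part (L3):
a perfect pairing `A × B → ℤ` and a skew map `J : A → B` whose image is the annihilator of its
kernel induce a PERFECT skew form on `J.range`.
-/
import Mathlib

set_option autoImplicit false

namespace Fermat.Agent.S41.PDAlg10

section Abstract

variable {A B : Type*} [AddCommGroup A] [AddCommGroup B]

/-- the pairing restricted to `A × J.range`, as a map `A →+ (J.range →+ ℤ)` -/
def pairRange (pair : A →+ B →+ ℤ) (J : A →+ B) : A →+ (↥J.range →+ ℤ) where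
  toFun a := (pair a).comp J.range.subtype
  map_zero' := by ext b; simp
  map_add' a a' := by ext b; simp

@[simp] lemma pairRange_apply (pair : A →+ B →+ ℤ) (J : A →+ B) (a : A) (b : ↥J.range) :
    pairRange pair J a b = pair a b.1 := rfl

lemma pairRange_ker (pair : A →+ B →+ ℤ) (J : A →+ B)
    (hskew : ∀ a a', pair a (J a') = - pair a' (J a)) :
    J.ker ≤ (pairRange pair J).ker := by
  intro a ha
  rw [AddMonoidHom.mem_ker] at ha ⊢
  ext ⟨b, a', rfl⟩
  simp only [pairRange_apply, AddMonoidHom.zero_apply]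
  rw [hskew, ha, map_zero, neg_zero]

/-- **the induced form** `ω (J a) b' = pair a b'` on `J.range`. -/
noncomputable def omega (pair : A →+ B →+ ℤ) (J : A →+ B)
    (hskew : ∀ a a', pair a (J a') = - pair a' (J a)) : ↥J.range →+ (↥J.range →+ ℤ) :=
  (QuotientAddGroup.lift J.ker (pairRange pair J) (pairRange_ker pair J hskew)).comp
    (QuotientAddGroup.quotientKerEquivRange J).symm.toAddMonoidHom

lemma omega_apply (pair : A →+ B →+ ℤ) (J : A →+ B)
    (hskew : ∀ a a', pair a (J a') = - pair a' (J a)) (a : A) (b' : ↥J.range) :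
    omega pair J hskew ⟨J a, a, rfl⟩ b' = pair a b'.1 := by
  have h : (QuotientAddGroup.quotientKerEquivRange J).symm ⟨J a, a, rfl⟩
      = (QuotientAddGroup.mk a : A ⧸ J.ker) := by
    rw [AddEquiv.symm_apply_eq]
    rfl
  simp only [omega, AddMonoidHom.comp_apply, AddEquiv.coe_toAddMonoidHom, h]
  rfl

lemma omega_skew (pair : A →+ B →+ ℤ) (J : A →+ B)
    (hskew : ∀ a a', pair a (J a') = - pair a' (J a)) (b b' : ↥J.range) :
    omega pair J hskew b b' = - omega pair J hskew b' b := by
  obtain ⟨_, a, rfl⟩ := b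
  obtain ⟨_, a', rfl⟩ := b'
  rw [omega_apply, omega_apply]
  exact hskew a a'

lemma omega_self (pair : A →+ B →+ ℤ) (J : A →+ B)
    (hskew : ∀ a a', pair a (J a') = - pair a' (J a)) (b : ↥J.range) :
    omega pair J hskew b b = 0 := by
  have := omega_skew pair J hskew b b
  omega

/-- **(L3) perfectness of the induced form.** -/
theorem omega_perfect (pair : A →+ B →+ ℤ)
    (hinj : ∀ b, (∀ a, pair a b = 0) → b = 0)
    (hsurj : ∀ lam : A →+ ℤ, ∃ b, ∀ a, pair a b = lam a)
    (J : A →+ B) (hskew : ∀ a a', pair a (J a') = - pair a' (J a))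
    (hL : ∀ b, (∀ a, J a = 0 → pair a b = 0) → ∃ a, J a = b)
    (lam : ↥J.range →+ ℤ) :
    ∃! b' : ↥J.range, ∀ b : ↥J.range, omega pair J hskew b b' = lam b := by
  obtain ⟨b0, hb0⟩ := hsurj (lam.comp J.rangeRestrict)
  have hmem : ∃ a, J a = b0 := by
    apply hL
    intro a ha
    rw [hb0, AddMonoidHom.comp_apply]
    have : J.rangeRestrict a = 0 := by
      ext
      simpa using ha
    rw [this, map_zero]
  obtain ⟨a0, rfl⟩ := hmem
  refine ⟨⟨J a0, a0, rfl⟩, ?_, ?_⟩
  · rintro ⟨_, a, rfl⟩
    rw [omega_apply]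
    exact hb0 a
  · rintro ⟨_, a1, rfl⟩ h1
    have : J a1 = J a0 := by
      rw [← sub_eq_zero]
      apply hinj
      intro a
      have e1 := h1 ⟨J a, a, rfl⟩
      rw [omega_apply] at e1
      simp only at e1
      rw [map_sub, e1, hb0 a]
      exact sub_self _
    exact Subtype.ext this

end Abstract

end Fermat.Agent.S41.PDAlg10
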