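/-
S41 / C7a [PD-ALG], second seat (helper10).  Model-independent lattice facts on `P → ℤ` with the
standard dot product:
(L1) a saturated subgroup is its own double orthogonal;
(L2) every additive functional on an orthogonal complement is a dot product;
and the resulting perfect pairing `perp I × (P → ℤ) ⧸ I → ℤ`.
-/
import Mathlib

set_option autoImplicit false

namespace Fermat.Agent.S41.PDAlg10

open Matrix

variable {P : Type*} [Fintype P]

/-- orthogonal complement of a subgroup of `P → ℤ` for the dot product -/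
def perp (I : AddSubgroup (P → ℤ)) : AddSubgroup (P → ℤ) where
  carrier := {m | ∀ a ∈ I, a ⬝ᵥ m = 0}
  zero_mem' := by intro a _; simp
  add_mem' := by
    intro m m' hm hm' a ha
    rw [dotProduct_add, hm a ha, hm' a ha, add_zero]
  neg_mem' := by
    intro m hm a ha
    rw [dotProduct_neg, hm a ha, neg_zero]

lemma mem_perp {I : AddSubgroup (P → ℤ)} {m : P → ℤ} :
    m ∈ perp I ↔ ∀ a ∈ I, a ⬝ᵥ m = 0 := Iff.rfl

lemma le_perp_perp (I : AddSubgroup (P → ℤ)) : I ≤ perp (perp I) := by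
  intro a ha m hm
  rw [dotProduct_comm]
  exact hm a ha

/-- an orthogonal complement is saturated -/
lemma perp_saturated (I : AddSubgroup (P → ℤ)) (n : ℤ) (hn : n ≠ 0) (m : P → ℤ)
    (h : n • m ∈ perp I) : m ∈ perp I := by
  intro a ha
  have := h a ha
  rw [dotProduct_smul, smul_eq_mul] at this
  exact (mul_eq_zero.mp this).resolve_left hn

/-- every `ℤ`-linear functional on `P → ℤ` is a dot product -/
lemma exists_dot_eq_linear [DecidableEq P] (φ : (P → ℤ) →ₗ[ℤ] ℤ) :
    ∃ c : P → ℤ, ∀ m, φ m = c ⬝ᵥ m := by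
  refine ⟨fun x => φ (Pi.single x 1), fun m => ?_⟩
  rw [LinearMap.pi_apply_eq_sum_univ φ m, dotProduct]
  refine Finset.sum_congr rfl fun x _ => ?_
  rw [smul_eq_mul, mul_comm]
  congr 2
  ext j
  simp [Pi.single_apply, eq_comm]

omit [Fintype P] in
/-- the quotient by a saturated subgroup is torsion-free -/
lemma isTorsionFree_quotient (I : Submodule ℤ (P → ℤ))
    (hsat : ∀ (n : ℤ) (m : P → ℤ), n ≠ 0 → n • m ∈ I → m ∈ I) :
    Module.IsTorsionFree ℤ ((P → ℤ) ⧸ I) := by
  apply Module.IsTorsionFree.of_smul_eq_zero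
  intro n x hx
  obtain ⟨m, rfl⟩ := Submodule.Quotient.mk_surjective I x
  by_cases hn : n = 0
  · exact Or.inl hn
  · right
    rw [← Submodule.Quotient.mk_smul, Submodule.Quotient.mk_eq_zero] at hx
    rw [Submodule.Quotient.mk_eq_zero]
    exact hsat n m hn hx

/-- **(L1)** a saturated subgroup of `P → ℤ` is its own double orthogonal. -/
theorem perp_perp_eq_of_saturated (I : AddSubgroup (P → ℤ))
    (hsat : ∀ (n : ℤ) (m : P → ℤ), n ≠ 0 → n • m ∈ I → m ∈ I) : perp (perp I) = I := by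
  classical
  refine le_antisymm ?_ (le_perp_perp I)
  intro m hm
  by_contra hmI
  let I' : Submodule ℤ (P → ℤ) := AddSubgroup.toIntSubmodule I
  have hI' : ∀ x, x ∈ I' ↔ x ∈ I := fun x => Iff.rfl
  have : Module.IsTorsionFree ℤ ((P → ℤ) ⧸ I') :=
    isTorsionFree_quotient I' (fun n x hn hx => (hI' x).mpr (hsat n x hn ((hI' _).mp hx)))
  have : Module.Free ℤ ((P → ℤ) ⧸ I') := Module.free_of_finite_type_torsion_free'
  let b := Module.Free.chooseBasis ℤ ((P → ℤ) ⧸ I')
  have hne : (Submodule.Quotient.mk m : (P → ℤ) ⧸ I') ≠ 0 := by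
    rw [Ne, Submodule.Quotient.mk_eq_zero]
    exact hmI
  have hrepr : b.repr (Submodule.Quotient.mk m) ≠ 0 := by
    intro h
    exact hne (b.repr.map_eq_zero_iff.mp h)
  obtain ⟨i, hi⟩ := Finsupp.ne_iff.mp hrepr
  let φ : (P → ℤ) →ₗ[ℤ] ℤ := (b.coord i).comp I'.mkQ
  obtain ⟨c, hc⟩ := exists_dot_eq_linear φ
  have hcI : c ∈ perp I := by
    intro a ha
    rw [dotProduct_comm, ← hc]
    show b.coord i (I'.mkQ a) = 0
    have : I'.mkQ a = 0 := by
      rw [Submodule.mkQ_apply, Submodule.Quotient.mk_eq_zero]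
      exact (hI' a).mpr ha
    rw [this, map_zero]
  have h0 := hm c hcI
  rw [← hc] at h0
  apply hi
  simpa [φ, Module.Basis.coord_apply] using h0

/-- **(L2)** every additive functional on an orthogonal complement is a dot product. -/
theorem exists_dot_eq_of_perp (I : AddSubgroup (P → ℤ)) (lam : ↥(perp I) →+ ℤ) :
    ∃ m : P → ℤ, ∀ a : ↥(perp I), lam a = a.1 ⬝ᵥ m := by
  classical
  let A' : Submodule ℤ (P → ℤ) := AddSubgroup.toIntSubmodule (perp I)
  have hA' : ∀ x, x ∈ A' ↔ x ∈ perp I := fun x => Iff.rfl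
  have : Module.IsTorsionFree ℤ ((P → ℤ) ⧸ A') :=
    isTorsionFree_quotient A'
      (fun n x hn hx => (hA' x).mpr (perp_saturated I n hn x ((hA' _).mp hx)))
  have : Module.Free ℤ ((P → ℤ) ⧸ A') := Module.free_of_finite_type_torsion_free'
  -- a section of the projection
  obtain ⟨σ, hσ⟩ := Module.projective_lifting_property A'.mkQ
    (LinearMap.id : ((P → ℤ) ⧸ A') →ₗ[ℤ] _) (Submodule.mkQ_surjective A')
  have hr : ∀ m : P → ℤ, m - σ (A'.mkQ m) ∈ perp I := by
    intro m
    rw [← hA', ← Submodule.Quotient.mk_eq_zero, Submodule.Quotient.mk_sub, sub_eq_zero]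
    have := LinearMap.congr_fun hσ (A'.mkQ m)
    simpa using this.symm
  let lam' : ↥A' →ₗ[ℤ] ℤ := lam.toIntLinearMap
  let r : (P → ℤ) →ₗ[ℤ] ↥A' :=
    { toFun := fun m => ⟨m - σ (A'.mkQ m), (hA' _).mpr (hr m)⟩
      map_add' := by
        intro m m'
        apply Subtype.ext
        simp only [map_add, Submodule.coe_add]
        abel
      map_smul' := by
        intro n m
        apply Subtype.ext
        simp only [map_smul, Submodule.coe_smul, RingHom.id_apply, smul_sub] }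
  obtain ⟨c, hc⟩ := exists_dot_eq_linear (lam'.comp r)
  refine ⟨c, fun a => ?_⟩
  rw [dotProduct_comm, ← hc]
  have ha0 : A'.mkQ a.1 = 0 := by
    rw [Submodule.mkQ_apply, Submodule.Quotient.mk_eq_zero]
    exact (hA' _).mpr a.2
  have : r a.1 = ⟨a.1, (hA' _).mpr a.2⟩ := by
    apply Subtype.ext
    show a.1 - σ (A'.mkQ a.1) = a.1
    rw [ha0, map_zero, sub_zero]
  show lam a = lam' (r a.1)
  rw [this]
  rfl

/-- the pairing `perp I × (P → ℤ) ⧸ I → ℤ` induced by the dot product -/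
def pairAB (I : AddSubgroup (P → ℤ)) : ↥(perp I) →+ ((P → ℤ) ⧸ I) →+ ℤ where
  toFun a := QuotientAddGroup.lift I
    { toFun := fun m => a.1 ⬝ᵥ m
      map_zero' := by simp
      map_add' := fun m m' => dotProduct_add _ _ _ }
    (by
      intro i hi
      rw [AddMonoidHom.mem_ker]
      show a.1 ⬝ᵥ i = 0
      rw [dotProduct_comm]
      exact a.2 i hi)
  map_zero' := by
    ext m
    simp
  map_add' a a' := by
    ext m
    simp [add_dotProduct]

@[simp] lemma pairAB_mk (I : AddSubgroup (P → ℤ)) (a : ↥(perp I)) (m : P → ℤ) :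
    pairAB I a (QuotientAddGroup.mk m) = a.1 ⬝ᵥ m := rfl

/-- the pairing is non-degenerate on the right when `I` is saturated -/
theorem pairAB_injective (I : AddSubgroup (P → ℤ))
    (hsat : ∀ (n : ℤ) (m : P → ℤ), n ≠ 0 → n • m ∈ I → m ∈ I)
    (b : (P → ℤ) ⧸ I) (hb : ∀ a, pairAB I a b = 0) : b = 0 := by
  obtain ⟨m, rfl⟩ := QuotientAddGroup.mk_surjective b
  rw [QuotientAddGroup.eq_zero_iff]
  rw [← perp_perp_eq_of_saturated I hsat]
  intro a ha
  exact hb ⟨a, ha⟩

/-- every functional on `perp I` is represented by a class -/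
theorem pairAB_surjective (I : AddSubgroup (P → ℤ)) (lam : ↥(perp I) →+ ℤ) :
    ∃ b : (P → ℤ) ⧸ I, ∀ a, pairAB I a b = lam a := by
  obtain ⟨m, hm⟩ := exists_dot_eq_of_perp I lam
  exact ⟨QuotientAddGroup.mk m, fun a => by rw [pairAB_mk, hm a]⟩

/-! ### Unbundled forms (no `perp`, plain sums): for consumers with their own `dot`. -/

/-- a subgroup `A` described as the orthogonal of `I` IS `perp I` -/
lemma eq_perp_of_forall (I A : AddSubgroup (P → ℤ))
    (hA : ∀ a, a ∈ A ↔ ∀ i ∈ I, ∑ x, i x * a x = 0) : A = perp I := by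
  ext a
  rw [hA a]
  rfl

/-- **(L1')** if `I` is saturated and `A = I^⊥`, then `A^⊥ ⊆ I`. -/
theorem mem_of_forall_dot_eq_zero (I A : AddSubgroup (P → ℤ))
    (hA : ∀ a, a ∈ A ↔ ∀ i ∈ I, ∑ x, i x * a x = 0)
    (hsat : ∀ (n : ℤ) (m : P → ℤ), n ≠ 0 → n • m ∈ I → m ∈ I)
    (m : P → ℤ) (h : ∀ a ∈ A, ∑ x, a x * m x = 0) : m ∈ I := by
  have hAp := eq_perp_of_forall I A hA
  rw [← perp_perp_eq_of_saturated I hsat]
  intro a ha
  exact h a (hAp ▸ ha)

/-- **(L2')** if `A = I^⊥` then every additive functional on `A` is a dot product. -/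
theorem exists_dot_eq (I A : AddSubgroup (P → ℤ))
    (hA : ∀ a, a ∈ A ↔ ∀ i ∈ I, ∑ x, i x * a x = 0) (lam : ↥A →+ ℤ) :
    ∃ m : P → ℤ, ∀ a : ↥A, lam a = ∑ x, a.1 x * m x := by
  have hAp := eq_perp_of_forall I A hA
  subst hAp
  exact exists_dot_eq_of_perp I lam

end Fermat.Agent.S41.PDAlg10
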