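/-
S41 / C7a [PD-ALG], second seat (helper10).  (L4) For a permutation `σ` of a finite set `P`,
the orthogonal complement of the `σ`-invariant functions `P → ℤ` is the image of `k ↦ k - k ∘ σ`
(no division, any cycle type).  (L5) The sum of the invariants of two permutations is saturated.
-/
import Mathlib

set_option autoImplicit false

namespace Fermat.Agent.S41.PDAlg10

open Matrix

variable {P : Type*} [Fintype P]

/-- reindexing the dot product along a permutation -/
lemma dot_comp_perm (σ : Equiv.Perm P) (k m : P → ℤ) : (k ∘ σ) ⬝ᵥ (m ∘ σ) = k ⬝ᵥ m :=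
  Equiv.sum_comp σ (fun x => k x * m x)

/-- easy direction of (L4) -/
lemma sub_comp_dot_eq_zero (σ : Equiv.Perm P) (k m : P → ℤ) (hm : m ∘ σ = m) :
    (k - k ∘ σ) ⬝ᵥ m = 0 := by
  rw [sub_dotProduct, sub_eq_zero]
  conv_rhs => rw [← hm]
  exact (dot_comp_perm σ k m).symm

variable [DecidableEq P]

omit [Fintype P] in
lemma tau_apply_of_ne (σ : Equiv.Perm P) (x z : P) (hzx : z ≠ x) (hσz : σ z ≠ x) :
    (Equiv.swap x (σ x) * σ) z = σ z := by
  rw [Equiv.Perm.mul_apply]
  exact Equiv.swap_apply_of_ne_of_ne hσz (fun h => hzx (σ.injective h))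

omit [Fintype P] in
lemma tau_apply_of_eq (σ : Equiv.Perm P) (x z : P) (hσz : σ z = x) :
    (Equiv.swap x (σ x) * σ) z = σ x := by
  rw [Equiv.Perm.mul_apply, hσz, Equiv.swap_apply_left]

/-- hard direction of (L4), by induction on the size of the support of `σ` -/
theorem exists_sub_comp_of_perp_aux : ∀ (n : ℕ) (σ : Equiv.Perm P), σ.support.card = n →
    ∀ f : P → ℤ, (∀ m : P → ℤ, m ∘ σ = m → f ⬝ᵥ m = 0) → ∃ k : P → ℤ, f = k - k ∘ σ := by
  intro n
  induction n using Nat.strong_induction_on with
  | _ n ih =>
  intro σ hn f hf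
  by_cases hσ : σ.support = ∅
  · -- `σ = 1`
    have h1 : σ = 1 := Equiv.Perm.support_eq_empty_iff.mp hσ
    refine ⟨0, ?_⟩
    funext x
    have := hf (Pi.single x 1) (by rw [h1]; rfl)
    simpa using this
  · obtain ⟨x, hx⟩ := Finset.nonempty_iff_ne_empty.mpr hσ
    have hx' : σ x ≠ x := Equiv.Perm.mem_support.mp hx
    set τ : Equiv.Perm P := Equiv.swap x (σ x) * σ with hτ
    have hcard : τ.support.card < n := by
      rw [← hn]
      exact Equiv.Perm.card_support_swap_mul hx'
    set k₀ : P → ℤ := Pi.single x (f x) with hk₀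
    set f' : P → ℤ := f - (k₀ - k₀ ∘ σ) with hf'
    have hf'x : f' x = 0 := by
      simp only [hf', hk₀, Pi.sub_apply, Function.comp_apply, Pi.single_eq_same,
        Pi.single_eq_of_ne hx']
      ring
    -- `f'` is orthogonal to the `τ`-invariants
    have hperp : ∀ m : P → ℤ, m ∘ τ = m → f' ⬝ᵥ m = 0 := by
      intro m hm
      have hmτ : ∀ z, m (τ z) = m z := fun z => congrFun hm z
      set m' : P → ℤ := Function.update m x (m (σ.symm x)) with hm'
      have hm'σ : m' ∘ σ = m' := by
        funext z
        show m' (σ z) = m' z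
        by_cases hzx : z = x
        · subst hzx
          rw [hm', Function.update_of_ne hx', Function.update_self]
          have := hmτ (σ.symm z)
          rw [tau_apply_of_eq σ z (σ.symm z) (σ.apply_symm_apply z)] at this
          exact this
        · by_cases hσz : σ z = x
          · rw [hσz, hm', Function.update_self, Function.update_of_ne hzx]
            rw [← hσz, Equiv.symm_apply_apply]
          · rw [hm', Function.update_of_ne hσz, Function.update_of_ne hzx]
            have := hmτ z
            rw [tau_apply_of_ne σ x z hzx hσz] at this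
            exact this
      have h1 : f' ⬝ᵥ m = f' ⬝ᵥ m' := by
        simp only [dotProduct]
        refine Finset.sum_congr rfl fun z _ => ?_
        by_cases hzx : z = x
        · rw [hzx, hf'x, zero_mul, zero_mul]
        · rw [hm', Function.update_of_ne hzx]
      rw [h1, hf', sub_dotProduct, hf m' hm'σ, sub_comp_dot_eq_zero σ k₀ m' hm'σ, sub_zero]
    obtain ⟨k', hk'⟩ := ih _ hcard τ rfl f' hperp
    set k'' : P → ℤ := Function.update k' x (k' (σ x)) with hk''
    have hf'' : f' = k'' - k'' ∘ σ := by
      funext z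
      show f' z = k'' z - k'' (σ z)
      by_cases hzx : z = x
      · subst hzx
        rw [hf'x, hk'', Function.update_self, Function.update_of_ne hx', sub_self]
      · have hz : f' z = k' z - k' (τ z) := by
          rw [hk']; rfl
        by_cases hσz : σ z = x
        · rw [hz, tau_apply_of_eq σ x z hσz, hσz, hk'', Function.update_self,
            Function.update_of_ne hzx]
        · rw [hz, tau_apply_of_ne σ x z hzx hσz, hk'', Function.update_of_ne hσz,
            Function.update_of_ne hzx]
    refine ⟨k'' + k₀, ?_⟩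
    have : f = f' + (k₀ - k₀ ∘ σ) := by rw [hf']; abel
    rw [this, hf'']
    funext z
    simp only [Pi.add_apply, Pi.sub_apply, Function.comp_apply]
    ring

/-- **(L4)** `f ∈ (1 - σ) M` iff `f` is orthogonal to the `σ`-invariants. -/
theorem exists_sub_comp_iff (σ : Equiv.Perm P) (f : P → ℤ) :
    (∃ k : P → ℤ, f = k - k ∘ σ) ↔ ∀ m : P → ℤ, m ∘ σ = m → f ⬝ᵥ m = 0 := by
  constructor
  · rintro ⟨k, rfl⟩ m hm
    exact sub_comp_dot_eq_zero σ k m hm
  · intro h
    exact exists_sub_comp_of_perp_aux _ σ rfl f h

omit [Fintype P] [DecidableEq P] in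
/-- the functions invariant under a permutation -/
def inv (σ : Equiv.Perm P) : AddSubgroup (P → ℤ) where
  carrier := {m | m ∘ σ = m}
  zero_mem' := rfl
  add_mem' := by
    intro m m' hm hm'
    funext x
    have h1 := congrFun hm x
    have h2 := congrFun hm' x
    simp only [Function.comp_apply] at h1 h2
    simp [h1, h2]
  neg_mem' := by
    intro m hm
    funext x
    have h1 := congrFun hm x
    simp only [Function.comp_apply] at h1
    simp [h1]

omit [Fintype P] [DecidableEq P] in
lemma mem_inv {σ : Equiv.Perm P} {m : P → ℤ} : m ∈ inv σ ↔ ∀ x, m (σ x) = m x :=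
  ⟨fun h x => congrFun h x, fun h => funext h⟩

omit [Fintype P] [DecidableEq P] in
/-- **(L5)** the sum of the invariants of two permutations is saturated (no choice of orbit
representatives: use the canonical residues `h x % d`). -/
theorem inv_sup_inv_saturated (s t : Equiv.Perm P) (d : ℤ) (hd : d ≠ 0) (m : P → ℤ)
    (h : d • m ∈ inv s ⊔ inv t) : m ∈ inv s ⊔ inv t := by
  obtain ⟨g, hg, h₁, hh₁, hsum⟩ := AddSubgroup.mem_sup.mp h
  rw [mem_inv] at hg hh₁
  have hsum' : ∀ x, g x + h₁ x = d * m x := fun x => by
    have := congrFun hsum x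
    simpa using this
  -- residues are invariant under both permutations
  have hct : ∀ x, h₁ (t x) % d = h₁ x % d := fun x => by rw [hh₁ x]
  have hcs : ∀ x, h₁ (s x) % d = h₁ x % d := by
    intro x
    have e1 := hsum' x
    have e2 := hsum' (s x)
    rw [hg x] at e2
    have : (d : ℤ) ∣ h₁ (s x) - h₁ x := ⟨m (s x) - m x, by linear_combination e2 - e1⟩
    exact Int.ModEq.eq (Int.modEq_iff_dvd.mpr this : h₁ x ≡ h₁ (s x) [ZMOD d]).symm
  set h' : P → ℤ := fun x => h₁ x / d with hh'
  have hdecomp : ∀ x, h₁ x = d * h' x + h₁ x % d := fun x => (Int.mul_ediv_add_emod (h₁ x) d).symm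
  have hh't : h' ∈ inv t := mem_inv.mpr fun x => by simp only [hh', hh₁ x]
  have hg's : m - h' ∈ inv s := by
    rw [mem_inv]
    intro x
    have e1 := hsum' x
    have e2 := hsum' (s x)
    rw [hg x] at e2
    have d1 := hdecomp x
    have d2 := hdecomp (s x)
    rw [hcs x] at d2
    have : d * ((m - h') (s x)) = d * ((m - h') x) := by
      simp only [Pi.sub_apply]
      linear_combination e1 - e2 + d2 - d1
    exact mul_left_cancel₀ hd this
  have : m = (m - h') + h' := by abel
  rw [this]
  exact AddSubgroup.add_mem_sup hg's hh't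

end Fermat.Agent.S41.PDAlg10
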